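import Fermat.Agent.Corollaries.Hilb.Defs
import Mathlib.Analysis.InnerProductSpace.Projection.Reflection
import Mathlib.MeasureTheory.Measure.OpenPos
import Mathlib.Tactic

/-!
# The mean of `⟨b, x⟩ ^ (2m)` over the unit ball
-/

set_option autoImplicit false

noncomputable section

namespace Fermat.Agent.Cor.Hilb

open Finset MeasureTheory

/-- **(A1)** the mean of `⟨b, x⟩ ^ (2m)` over the unit ball is `c ‖x‖ ^ (2m)`. -/
theorem ballStmt : BallStmt := by
  intro m
  set e : EuclideanSpace ℝ (Fin 5) := EuclideanSpace.single 0 1 with he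
  have hen : ‖e‖ = 1 := by rw [he, PiLp.norm_single, norm_one]
  have hin : ∀ b x : EuclideanSpace ℝ (Fin 5), ∑ i, b i * x i = inner ℝ b x := by
    intro b x
    rw [PiLp.inner_apply]
    exact sum_congr rfl fun i _ => by simp [mul_comm]
  have hnorm : ∀ x : EuclideanSpace ℝ (Fin 5), ∑ i, x i ^ 2 = ‖x‖ ^ 2 := by
    intro x
    rw [EuclideanSpace.norm_sq_eq]
    exact sum_congr rfl fun i _ => by rw [Real.norm_eq_abs, sq_abs]
  refine ⟨∫ b in Metric.ball (0 : EuclideanSpace ℝ (Fin 5)) 1, (inner ℝ b e) ^ (2 * m), ?_, ?_⟩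
  · have hcont : Continuous fun b : EuclideanSpace ℝ (Fin 5) => (inner ℝ b e) ^ (2 * m) := by
      fun_prop
    have hI : IntegrableOn (fun b : EuclideanSpace ℝ (Fin 5) => (inner ℝ b e) ^ (2 * m))
        (Metric.ball 0 1) :=
      (hcont.continuousOn.integrableOn_compact (isCompact_closedBall 0 1)).mono_set
        Metric.ball_subset_closedBall
    have hnn : ∀ b : EuclideanSpace ℝ (Fin 5), 0 ≤ (inner ℝ b e) ^ (2 * m) := fun b => by
      rw [pow_mul]
      positivity
    rw [setIntegral_pos_iff_support_of_nonneg_ae (Filter.Eventually.of_forall hnn) hI]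
    have hO : IsOpen ({b : EuclideanSpace ℝ (Fin 5) | 0 < inner ℝ b e} ∩ Metric.ball 0 1) :=
      (isOpen_lt continuous_const (by fun_prop)).inter Metric.isOpen_ball
    have hne : ({b : EuclideanSpace ℝ (Fin 5) | 0 < inner ℝ b e} ∩ Metric.ball 0 1).Nonempty := by
      refine ⟨(1 / 2 : ℝ) • e, ?_, ?_⟩
      · change 0 < inner ℝ ((1 / 2 : ℝ) • e) e
        rw [inner_smul_left, real_inner_self_eq_norm_sq, hen]
        norm_num
      · rw [mem_ball_zero_iff, norm_smul, hen]
        norm_num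
    refine (hO.measure_pos volume hne).trans_le (measure_mono ?_)
    rintro b ⟨hb, hb'⟩
    exact ⟨(pow_pos hb _).ne', hb'⟩
  · intro x
    let w : EuclideanSpace ℝ (Fin 5) := ‖x‖ • e
    have hw : ‖x‖ = ‖w‖ := by
      rw [norm_smul, norm_norm, hen, mul_one]
    let T : EuclideanSpace ℝ (Fin 5) ≃ₗᵢ[ℝ] EuclideanSpace ℝ (Fin 5) :=
      (Submodule.span ℝ {x - w})ᗮ.reflection
    have hT : T x = w := Submodule.reflection_sub hw
    have h1 : ∀ b : EuclideanSpace ℝ (Fin 5), (∑ i, b i * x i) ^ (2 * m) =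
        ‖x‖ ^ (2 * m) * (inner ℝ (T b) e) ^ (2 * m) := by
      intro b
      rw [hin, ← T.inner_map_map, hT, inner_smul_right, mul_pow]
    simp only [h1]
    rw [integral_const_mul, hnorm, ← pow_mul, mul_comm]
    congr 1
    have h2 := T.measurePreserving.setIntegral_preimage_emb T.toHomeomorph.measurableEmbedding
      (fun b => (inner ℝ b e) ^ (2 * m)) (Metric.ball 0 1)
    rw [← h2]
    congr 2
    ext b
    simp

end Fermat.Agent.Cor.Hilb
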