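import Fermat.Agent.Corollaries.Waring.Basic
import Mathlib.Analysis.InnerProductSpace.PiL2
import Mathlib.MeasureTheory.Measure.Haar.InnerProductSpace
import Mathlib.MeasureTheory.Integral.Bochner.Set

/-!
# The Hilbert - Waring theorem: statements of the pieces

`SP e N n` (Waring/Basic): `n` is a sum of `N` `e`-th powers of natural numbers.
-/

set_option autoImplicit false

noncomputable section

namespace Fermat.Agent.Cor.Hilb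

open Finset MeasureTheory Fermat.Agent.Cor.Waring

/-- Waring's problem for the exponent `e`. -/
def Wa (e : ℕ) : Prop := ∃ g : ℕ, ∀ n : ℕ, SP e g n

/-- (A1) Ball.lean: the mean of `⟨b, x⟩ ^ (2m)` over the unit ball is `c ‖x‖ ^ (2m)`. -/
def BallStmt : Prop := ∀ m : ℕ, ∃ c : ℝ, 0 < c ∧ ∀ x : EuclideanSpace ℝ (Fin 5),
  ∫ b in Metric.ball (0 : EuclideanSpace ℝ (Fin 5)) 1, (∑ i, b i * x i) ^ (2 * m) =
    c * (∑ i, x i ^ 2) ^ m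

/-- (A) Hilbert.lean: **Hilbert's identity** -/
def HilbStmt : Prop := ∀ m : ℕ, ∃ (D : ℕ) (ι : Type) (_ : Fintype ι) (b : ι → Fin 5 → ℤ), 0 < D ∧
  ∀ x : Fin 5 → ℤ, (D : ℤ) * (∑ i, x i ^ 2) ^ m = ∑ j, (∑ i, b j i * x i) ^ (2 * m)

/-- (B) Der.lean: Hilbert's identity for `m = k + ℓ`, derived `2ℓ` times. -/
def DerStmt : Prop := ∀ k ℓ : ℕ, 1 ≤ k → ℓ ≤ k → ∃ (A : ℕ → ℕ) (N : ℕ), 0 < A ℓ ∧
  ∀ x T : ℕ, x ^ 2 ≤ T →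
    SP (2 * k) N (∑ i ∈ range (ℓ + 1), A i * x ^ (2 * i) * T ^ (k - i))

/-- (C) Int.lean: integral coefficients. -/
def IntStmt : Prop := ∀ k : ℕ, 1 ≤ k → ∃ (Q N : ℕ) (B : ℕ → ℕ → ℕ), 0 < Q ∧
  ∀ ℓ ≤ k, ∀ x T : ℕ, x ^ 2 ≤ T →
    SP (2 * k) N (Q * (x ^ (2 * ℓ) * T ^ (k - ℓ) +
      ∑ i ∈ range ℓ, B i ℓ * x ^ (2 * i) * T ^ (k - i)))

/-- (D) Mult.lean: the digits in base `T`. -/
def MultStmt : Prop := ∀ k : ℕ, 2 ≤ k → (∀ ℓ : ℕ, 1 ≤ ℓ → ℓ < k → Wa (2 * ℓ)) →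
  ∃ Q K : ℕ, 0 < Q ∧ ∀ K' : ℕ, ∃ N : ℕ, ∀ T n : ℕ, 1 ≤ T → T ∣ n → K * T ^ k ≤ n →
    n ≤ K' * T ^ k → SP (2 * k) N (Q * n)

/-- (E) Main.lean: **the Hilbert - Waring theorem** -/
def WaringStmt : Prop := ∀ k : ℕ, 1 ≤ k → ∃ g : ℕ, ∀ n : ℕ, ∃ f : Fin g → ℕ, ∑ i, f i ^ k = n

end Fermat.Agent.Cor.Hilb
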