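import Fermat.Agent.Corollaries.Hilb.Defs
import Mathlib.Algebra.Polynomial.Roots
import Mathlib.NumberTheory.SumFourSquares

/-!
# The Hilbert - Waring theorem: differentiated identities

Hilbert's identity `D (x₁² + ⋯ + x₅²)^m = ∑ (b_j · x)^(2m)` with `m = k + ℓ`, `x₁ = x + Z`,
`x₂² + ⋯ + x₅² = T - x²`: the coefficient of `Z^(2ℓ)` expresses `∑ A_i x^(2i) T^(k-i)` as a sum of a
bounded number of `2k`-th powers.
-/

set_option autoImplicit false

namespace Fermat.Agent.Cor.Hilb.Der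

open Finset Polynomial Fermat.Agent.Cor.Waring

/-- the coefficients of `(a X + b)^n` -/
theorem coeff_linear_pow (a b : ℤ) (n r : ℕ) :
    ((C a * X + C b) ^ n).coeff r = a ^ r * b ^ (n - r) * (n.choose r : ℤ) := by
  have h : ∀ i : ℕ, (C a * X) ^ i * (C b) ^ (n - i) * ((n.choose i : ℕ) : ℤ[X]) =
      C (a ^ i * b ^ (n - i) * (n.choose i : ℤ)) * X ^ i := by
    intro i
    rw [mul_pow]
    simp only [C_mul, C_pow, map_natCast]
    ring
  rw [add_pow]
  simp only [h, finsetSum_coeff, coeff_C_mul, coeff_X_pow]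
  by_cases hr : r ≤ n
  · rw [sum_eq_single_of_mem r (by rw [mem_range]; omega)]
    · rw [if_pos rfl, mul_one]
    · intro i _ hi
      rw [if_neg (Ne.symm hi), mul_zero]
  · rw [Nat.choose_eq_zero_of_lt (by omega), Nat.cast_zero, mul_zero]
    refine sum_eq_zero fun i hi => ?_
    rw [mem_range] at hi
    rw [if_neg (by omega), mul_zero]

/-- the even coefficients of `(X² + s X + t)^m` -/
theorem coeff_quad_pow (s t : ℤ) {m l : ℕ} (hl : l ≤ m) :
    ((X ^ 2 + (C s * X + C t)) ^ m).coeff (2 * l) =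
      ∑ i ∈ range (l + 1), s ^ (2 * i) * t ^ (m - l - i) *
        ((m - (l - i)).choose (2 * i) : ℤ) * (m.choose (l - i) : ℤ) := by
  rw [add_pow, finsetSum_coeff]
  have h1 : ∀ a : ℕ, ((X ^ 2 : ℤ[X]) ^ a * (C s * X + C t) ^ (m - a) *
      ((m.choose a : ℕ) : ℤ[X])).coeff (2 * l) = if a ≤ l then
      s ^ (2 * l - 2 * a) * t ^ (m - a - (2 * l - 2 * a)) *
        ((m - a).choose (2 * l - 2 * a) : ℤ) * (m.choose a : ℤ) else 0 := by
    intro a
    rw [← C_eq_natCast, ← pow_mul, mul_assoc, coeff_X_pow_mul', coeff_mul_C, coeff_linear_pow]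
    by_cases ha : a ≤ l
    · rw [if_pos (by omega), if_pos ha]
    · rw [if_neg (by omega), if_neg ha]
  rw [sum_congr rfl fun a _ => h1 a]
  have h2 : ∑ a ∈ range (m + 1), (if a ≤ l then
      s ^ (2 * l - 2 * a) * t ^ (m - a - (2 * l - 2 * a)) *
        ((m - a).choose (2 * l - 2 * a) : ℤ) * (m.choose a : ℤ) else 0) =
      ∑ a ∈ range (l + 1), s ^ (2 * l - 2 * a) * t ^ (m - a - (2 * l - 2 * a)) *
        ((m - a).choose (2 * l - 2 * a) : ℤ) * (m.choose a : ℤ) := by
    symm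
    rw [sum_congr rfl (g := fun a => if a ≤ l then
      s ^ (2 * l - 2 * a) * t ^ (m - a - (2 * l - 2 * a)) *
        ((m - a).choose (2 * l - 2 * a) : ℤ) * (m.choose a : ℤ) else 0) fun a ha => by
        rw [mem_range] at ha
        rw [if_pos (by omega)]]
    refine sum_subset (range_subset_range.mpr (by omega)) fun a _ ha => ?_
    rw [mem_range] at ha
    rw [if_neg (by omega)]
  rw [h2, ← sum_range_reflect]
  refine sum_congr rfl fun i hi => ?_
  rw [mem_range] at hi
  have e1 : l + 1 - 1 - i = l - i := by omega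
  have e2 : 2 * l - 2 * (l - i) = 2 * i := by omega
  have e3 : m - (l - i) - 2 * i = m - l - i := by omega
  rw [e1, e2, e3]

/-- many equal powers -/
theorem sp_sum {ι : Type*} (s : Finset ι) (e : ℕ) (M a : ι → ℕ) :
    SP e (∑ j ∈ s, M j) (∑ j ∈ s, M j * a j ^ e) := by
  classical
  induction s using Finset.induction_on with
  | empty =>
    rw [sum_empty, sum_empty]
    exact ⟨Fin.elim0, by simp⟩
  | insert j s hj ih =>
    rw [sum_insert hj, sum_insert hj]
    exact SP.add ⟨fun _ => a j, by simp⟩ ih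

end Der

open Finset Polynomial Fermat.Agent.Cor.Waring Der

/-- (B) -/
theorem derStmt_of (h : HilbStmt) : DerStmt := by
  intro k l hk hl
  obtain ⟨D, ι, _, b, hD, hb⟩ := h (k + l)
  refine ⟨fun i => D * (k + l).choose (l - i) * (k + l - (l - i)).choose (2 * i) * 4 ^ i,
    ∑ j, (2 * (k + l)).choose (2 * l) * (b j 0).natAbs ^ (2 * l), ?_, ?_⟩
  · have h1 : 0 < (k + l).choose (2 * l) := Nat.choose_pos (by omega)
    simp only [Nat.sub_self, Nat.choose_zero_right, Nat.sub_zero, mul_one]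
    positivity
  intro x T hT
  obtain ⟨u₁, u₂, u₃, u₄, hu⟩ := Nat.sum_four_squares (T - x ^ 2)
  set u : Fin 4 → ℤ := ![(u₁ : ℤ), u₂, u₃, u₄] with hudef
  have hu' : (x : ℤ) ^ 2 + ∑ i, u i ^ 2 = T := by
    have h1 : T = x ^ 2 + (u₁ ^ 2 + u₂ ^ 2 + u₃ ^ 2 + u₄ ^ 2) := by omega
    rw [h1, hudef, Fin.sum_univ_four]
    push_cast
    simp
  set c : ι → ℤ := fun j => ∑ i : Fin 4, b j i.succ * u i with hc
  have hpoly : C (D : ℤ) * (X ^ 2 + (C (2 * (x : ℤ)) * X + C (T : ℤ))) ^ (k + l) =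
      ∑ j, (C (b j 0) * X + C (c j + b j 0 * x)) ^ (2 * (k + l)) := by
    refine Polynomial.funext fun z => ?_
    rw [eval_finsetSum]
    simp only [eval_mul, eval_add, eval_pow, eval_C, eval_X]
    have h1 := hb (Fin.cons ((x : ℤ) + z) u)
    simp only [Fin.sum_univ_succ (n := 4), Fin.cons_zero, Fin.cons_succ] at h1
    have h2 : z ^ 2 + (2 * (x : ℤ) * z + T) = ((x : ℤ) + z) ^ 2 + ∑ i, u i ^ 2 := by
      rw [← hu']
      ring
    rw [h2, h1]
    refine sum_congr rfl fun j _ => ?_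
    congr 1
    rw [hc]
    ring
  have hcoeff := congrArg (fun P : ℤ[X] => P.coeff (2 * l)) hpoly
  simp only [coeff_C_mul, finsetSum_coeff, coeff_linear_pow] at hcoeff
  rw [coeff_quad_pow _ _ (Nat.le_add_left l k)] at hcoeff
  have hmain : ∑ i ∈ range (l + 1),
      (D * (k + l).choose (l - i) * (k + l - (l - i)).choose (2 * i) * 4 ^ i) * x ^ (2 * i) *
        T ^ (k - i) =
      ∑ j, ((2 * (k + l)).choose (2 * l) * (b j 0).natAbs ^ (2 * l)) *
        (c j + b j 0 * x).natAbs ^ (2 * k) := by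
    have hZ : ((∑ i ∈ range (l + 1),
        (D * (k + l).choose (l - i) * (k + l - (l - i)).choose (2 * i) * 4 ^ i) * x ^ (2 * i) *
          T ^ (k - i) : ℕ) : ℤ) =
        ((∑ j, ((2 * (k + l)).choose (2 * l) * (b j 0).natAbs ^ (2 * l)) *
        (c j + b j 0 * x).natAbs ^ (2 * k) : ℕ) : ℤ) := by
      push_cast
      simp only [(even_two_mul l).pow_abs, (even_two_mul k).pow_abs]
      rw [mul_sum] at hcoeff
      have e1 : ∑ i ∈ range (l + 1), (D : ℤ) * ((k + l).choose (l - i) : ℤ) *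
          ((k + l - (l - i)).choose (2 * i) : ℤ) * 4 ^ i * (x : ℤ) ^ (2 * i) * (T : ℤ) ^ (k - i) =
          ∑ i ∈ range (l + 1), (D : ℤ) * ((2 * (x : ℤ)) ^ (2 * i) * (T : ℤ) ^ (k + l - l - i) *
            ((k + l - (l - i)).choose (2 * i) : ℤ) * ((k + l).choose (l - i) : ℤ)) := by
        refine sum_congr rfl fun i _ => ?_
        rw [Nat.add_sub_cancel, mul_pow, pow_mul 2 2 i]
        norm_num
        ring
      rw [e1, hcoeff]
      refine sum_congr rfl fun j _ => ?_
      have e2 : 2 * (k + l) - 2 * l = 2 * k := by omega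
      rw [e2]
      ring
    exact_mod_cast hZ
  rw [hmain]
  exact sp_sum univ (2 * k) _ _

end Fermat.Agent.Cor.Hilb
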