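import Fermat.Agent.Corollaries.Hilb.Defs
import Mathlib.Algebra.MvPolynomial.Funext
import Mathlib.Analysis.Convex.Caratheodory
import Mathlib.Analysis.LocallyConvex.Separation
import Mathlib.Analysis.Normed.Affine.AddTorsorBases
import Mathlib.Analysis.Normed.Module.FiniteDimension
import Mathlib.Data.Nat.Choose.Multinomial
import Mathlib.MeasureTheory.Measure.OpenPos
import Mathlib.Tactic

/-!
# Hilbert's identity

`hilbStmt_of`: for every `m` there are `D > 0` and finitely many integral vectors `b_j` with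
`D (x₁² + ... + x₅²)^m = ∑ (b_j · x)^{2m}`.
-/

set_option autoImplicit false

noncomputable section

namespace Fermat.Agent.Cor.Hilb

open Finset MeasureTheory

namespace Hil

/-- the exponents -/
abbrev Ix (m : ℕ) : Finset (Fin 5 → ℕ) := piAntidiag (univ : Finset (Fin 5)) (2 * m)

/-- monomials -/
def mon {R : Type*} [CommSemiring R] (μ : Fin 5 → ℕ) (b : Fin 5 → R) : R := ∏ i, b i ^ μ i

theorem map_mon {R S : Type*} [CommSemiring R] [CommSemiring S] (f : R →+* S) (μ : Fin 5 → ℕ)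
    (b : Fin 5 → R) : f (mon μ b) = mon μ fun i => f (b i) := by
  simp [mon]

theorem mon_smul {R : Type*} [CommSemiring R] {m : ℕ} {μ : Fin 5 → ℕ} (hμ : μ ∈ Ix m) (s : R)
    (b : Fin 5 → R) : mon μ (fun i => s * b i) = s ^ (2 * m) * mon μ b := by
  rw [mon, mon]
  simp only [mul_pow]
  rw [Finset.prod_mul_distrib, Finset.prod_pow_eq_pow_sum]
  rw [mem_piAntidiag] at hμ
  rw [hμ.1]

theorem sum_pow_eq {R : Type*} [CommSemiring R] (m : ℕ) (b x : Fin 5 → R) :
    (∑ i, b i * x i) ^ (2 * m) =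
      ∑ μ ∈ Ix m, (Nat.multinomial univ μ : R) * (mon μ b * mon μ x) := by
  rw [Finset.sum_pow_eq_sum_piAntidiag]
  refine sum_congr rfl fun μ _ => ?_
  rw [mon, mon, ← Finset.prod_mul_distrib]
  congr 1
  exact prod_congr rfl fun i _ => mul_pow _ _ _

/-- the coefficients of `(x₁² + ... + x₅²)^m`, divided by the multinomial coefficients -/
def co (m : ℕ) (μ : Fin 5 → ℕ) : ℚ :=
  (∑ ν ∈ (piAntidiag (univ : Finset (Fin 5)) m).filter (fun ν => (fun i => 2 * ν i) = μ),
    (Nat.multinomial univ ν : ℚ)) / Nat.multinomial univ μ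

theorem sum_sq_pow_eq {R : Type*} [Field R] [CharZero R] (m : ℕ) (x : Fin 5 → R) :
    (∑ i, x i ^ 2) ^ m = ∑ μ ∈ Ix m, (Nat.multinomial univ μ : R) * ((co m μ : R) * mon μ x) := by
  rw [Finset.sum_pow_eq_sum_piAntidiag]
  have h1 : ∀ μ ∈ Ix m, (Nat.multinomial univ μ : R) * ((co m μ : R) * mon μ x) =
      ∑ ν ∈ (piAntidiag (univ : Finset (Fin 5)) m).filter (fun ν => (fun i => 2 * ν i) = μ),
        (Nat.multinomial univ ν : R) * ∏ i, (x i ^ 2) ^ ν i := by
    intro μ _
    have h2 : (Nat.multinomial univ μ : R) ≠ 0 := by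
      exact_mod_cast (Nat.multinomial_pos _ _).ne'
    rw [co]
    push_cast
    rw [← mul_assoc, mul_div_cancel₀ _ h2, Finset.sum_mul]
    refine sum_congr rfl fun ν hν => ?_
    congr 1
    rw [mon, ← (mem_filter.mp hν).2]
    exact prod_congr rfl fun i _ => (pow_mul _ _ _)
  rw [sum_congr rfl h1]
  rw [Finset.sum_fiberwise_of_maps_to]
  intro ν hν
  rw [mem_piAntidiag] at hν ⊢
  refine ⟨?_, fun i _ => mem_univ i⟩
  rw [← hν.1, Finset.mul_sum]

/-- A homogeneous polynomial which vanishes everywhere is zero. -/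
theorem eq_zero_of_sum {m : ℕ} {a : (Fin 5 → ℕ) → ℝ}
    (h : ∀ x : Fin 5 → ℝ, ∑ μ ∈ Ix m, a μ * mon μ x = 0) {μ : Fin 5 → ℕ} (hμ : μ ∈ Ix m) :
    a μ = 0 := by
  classical
  let p : MvPolynomial (Fin 5) ℝ := ∑ μ ∈ Ix m, MvPolynomial.monomial (Finsupp.equivFunOnFinite.symm μ) (a μ)
  have hp : p = 0 := by
    refine MvPolynomial.funext fun x => ?_
    rw [map_zero, map_sum, ← h x]
    refine sum_congr rfl fun ν _ => ?_
    rw [MvPolynomial.eval_monomial, mon, Finsupp.prod_fintype _ _ (fun i => pow_zero _)]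
    rfl
  have h1 : p.coeff (Finsupp.equivFunOnFinite.symm μ) = a μ := by
    rw [MvPolynomial.coeff_sum, Finset.sum_eq_single μ]
    · rw [MvPolynomial.coeff_monomial, if_pos rfl]
    · intro ν _ hν
      rw [MvPolynomial.coeff_monomial, if_neg]
      intro h2
      exact hν (Finsupp.equivFunOnFinite.symm.injective h2)
    · intro h2
      exact absurd hμ h2
  rw [← h1, hp, MvPolynomial.coeff_zero]

/-- Rational weights. -/
theorem exists_rat {I : Type*} [Fintype I] {ι : Type*} [Fintype ι] {q : ι → I → ℚ}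
    (hq : AffineIndependent ℝ fun i => ((fun n => (q i n : ℝ)) : I → ℝ)) {w : ι → ℝ}
    (hw : ∑ i, w i = 1) {r : I → ℚ} (hr : ∀ n, ∑ i, w i * (q i n : ℝ) = r n) :
    ∃ w' : ι → ℚ, ∀ i, w i = w' i := by
  classical
  let A : (ι → ℚ) →ₗ[ℚ] ℚ × (I → ℚ) :=
    { toFun := fun w => (∑ i, w i, fun n => ∑ i, w i * q i n)
      map_add' := by
        intro u v
        ext
        · simp [Finset.sum_add_distrib]
        · simp [add_mul, Finset.sum_add_distrib]
      map_smul' := by
        intro c v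
        ext
        · simp [Finset.mul_sum]
        · simp [Finset.mul_sum, mul_assoc] }
  have hA : LinearMap.ker A = ⊥ := by
    rw [LinearMap.ker_eq_bot']
    intro u hu
    have h1 : ∑ i, u i = 0 := congrArg Prod.fst hu
    have h2 : ∀ n, ∑ i, u i * q i n = 0 := fun n => congrFun (congrArg Prod.snd hu) n
    rw [affineIndependent_iff] at hq
    have h3 := hq univ (fun i => (u i : ℝ)) (by exact_mod_cast h1) (by
      funext n
      rw [Finset.sum_apply]
      simp only [Pi.smul_apply, smul_eq_mul, Pi.zero_apply]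
      exact_mod_cast h2 n)
    funext i
    exact_mod_cast h3 i (mem_univ i)
  obtain ⟨G, hG⟩ := LinearMap.exists_leftInverse_of_injective A hA
  have hG' : ∀ v, G (A v) = v := fun v => LinearMap.congr_fun hG v
  have key : ∀ i j : ι, G (1, 0) j + ∑ n, q i n * G (0, Pi.single n 1) j = if i = j then 1 else 0 := by
    intro i j
    have h1 : A (Pi.single i 1) = (1, 0) + ∑ n, q i n • ((0, Pi.single n 1) : ℚ × (I → ℚ)) := by
      ext
      · simp [A, Prod.fst_sum]
      · rename_i n
        simp [A, Prod.snd_sum, Finset.sum_apply, Pi.single_apply]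
    have h2 := hG' (Pi.single i 1)
    rw [h1, map_add, map_sum] at h2
    have h3 := congrFun h2 j
    rw [Pi.add_apply, Finset.sum_apply, Pi.single_apply] at h3
    simp only [map_smul, Pi.smul_apply, smul_eq_mul] at h3
    rw [h3]
    simp [eq_comm]
  refine ⟨fun j => G (1, 0) j + ∑ n, r n * G (0, Pi.single n 1) j, fun j => ?_⟩
  have h1 : w j = ∑ i, w i * (if i = j then 1 else 0 : ℝ) := by simp
  have h2 : ∀ i, (if i = j then 1 else 0 : ℝ) =
      ((G (1, 0) j + ∑ n, q i n * G (0, Pi.single n 1) j : ℚ) : ℝ) := by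
    intro i
    rw [key i j]
    split_ifs <;> simp
  rw [h1]
  simp only [h2]
  push_cast
  simp only [mul_add, Finset.sum_add_distrib, Finset.mul_sum]
  rw [← Finset.sum_mul, hw, one_mul, Finset.sum_comm]
  congr 1
  refine sum_congr rfl fun n _ => ?_
  rw [← hr n, Finset.sum_mul]
  exact sum_congr rfl fun i _ => by ring

/-- the moment vectors -/
def vv (m : ℕ) (b : Fin 5 → ℝ) : Ix m → ℝ := fun μ => mon μ.1 b

/-- the moment vectors of rational points -/
def SS (m : ℕ) : Set (Ix m → ℝ) := Set.range fun b : Fin 5 → ℚ => vv m (fun i => (b i : ℝ))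

theorem continuous_mon (μ : Fin 5 → ℕ) : Continuous fun b : Fin 5 → ℝ => mon μ b := by
  unfold mon
  fun_prop

theorem continuous_vv (m : ℕ) : Continuous (vv m) := continuous_pi fun μ => continuous_mon μ.1

theorem vv_smul {m : ℕ} (s : ℝ) (b : Fin 5 → ℝ) :
    vv m (fun i => s * b i) = s ^ (2 * m) • vv m b := by
  funext μ
  exact mon_smul μ.2 s b

theorem eq_zero_of_vv {m : ℕ} {f : (Ix m → ℝ) →ₗ[ℝ] ℝ} (h : ∀ x, f (vv m x) = 0) : f = 0 := by
  classical
  let a : (Fin 5 → ℕ) → ℝ := fun ν =>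
    if hν : ν ∈ Ix m then f (fun j => if (⟨ν, hν⟩ : Ix m) = j then 1 else 0) else 0
  have h2 : ∀ x : Fin 5 → ℝ, ∑ μ ∈ Ix m, a μ * mon μ x = 0 := by
    intro x
    rw [← h x, LinearMap.pi_apply_eq_sum_univ, ← Finset.sum_coe_sort (Ix m)]
    refine sum_congr rfl fun μ _ => ?_
    have h3 : a μ.1 = f (fun j => if μ = j then 1 else 0) := dif_pos μ.2
    rw [h3, smul_eq_mul, mul_comm]
    rfl
  refine LinearMap.ext fun v => ?_
  rw [LinearMap.pi_apply_eq_sum_univ, LinearMap.zero_apply]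
  refine Finset.sum_eq_zero fun μ _ => ?_
  have h3 : a μ.1 = f (fun j => if μ = j then 1 else 0) := dif_pos μ.2
  rw [← h3, eq_zero_of_sum h2 μ.2, smul_zero]

theorem le_of_rat {P : (Fin 5 → ℝ) → ℝ} (hP : Continuous P) {c : ℝ}
    (h : ∀ b : Fin 5 → ℚ, P (fun i => (b i : ℝ)) ≤ c) (b : Fin 5 → ℝ) : P b ≤ c := by
  have hd : DenseRange (fun b : Fin 5 → ℚ => (fun i => (b i : ℝ) : Fin 5 → ℝ)) := by
    have h1 : Dense (Set.pi Set.univ fun _ : Fin 5 => Set.range ((↑) : ℚ → ℝ)) :=
      dense_pi _ fun _ _ => Rat.denseRange_cast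
    refine h1.mono ?_
    intro x hx
    have h2 : ∀ i, ∃ q : ℚ, (q : ℝ) = x i := fun i => hx i (Set.mem_univ i)
    choose q hq using h2
    exact ⟨q, funext hq⟩
  exact hd.induction_on b (isClosed_le hP continuous_const) h

theorem interior_nonempty {m : ℕ} (hm : 1 ≤ m) :
    (interior (convexHull ℝ (SS m))).Nonempty := by
  rw [interior_convexHull_nonempty_iff_affineSpan_eq_top]
  have h0 : (0 : Ix m → ℝ) ∈ SS m := by
    refine ⟨0, ?_⟩
    have h1 := vv_smul (m := m) 0 (0 : Fin 5 → ℝ)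
    rw [zero_pow (by omega), zero_smul] at h1
    rw [← h1]
    funext i
    simp
  rw [AffineSubspace.affineSpan_eq_top_iff_vectorSpan_eq_top_of_nonempty ℝ _ _ ⟨0, h0⟩,
    vectorSpan_eq_span_vsub_set_right ℝ h0]
  by_contra hne
  obtain ⟨f, hf0, hf⟩ := Submodule.exists_le_ker_of_lt_top _ (lt_top_iff_ne_top.mpr hne)
  apply hf0
  have h1 : ∀ b : Fin 5 → ℚ, f (vv m (fun i => (b i : ℝ))) = 0 := by
    intro b
    have h2 : vv m (fun i => (b i : ℝ)) ∈ Submodule.span ℝ ((fun x => x -ᵥ (0 : Ix m → ℝ)) '' SS m) :=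
      Submodule.subset_span ⟨_, ⟨b, rfl⟩, by simp⟩
    exact hf h2
  have hfc : Continuous f := f.continuous_of_finiteDimensional
  refine eq_zero_of_vv fun x => le_antisymm ?_ ?_
  · exact le_of_rat (P := fun x => f (vv m x)) (hfc.comp (continuous_vv m))
      (fun b => (h1 b).le) x
  · have h2 := le_of_rat (P := fun x => -f (vv m x)) (c := 0) (hfc.comp (continuous_vv m)).neg
      (fun b => by rw [h1 b, neg_zero]) x
    linarith

theorem mem_convexHull (hB : BallStmt) {m : ℕ} (hm : 1 ≤ m) :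
    (fun μ : Ix m => (co m μ.1 : ℝ)) ∈ convexHull ℝ (SS m) := by
  classical
  obtain ⟨c, hc, hball⟩ := hB m
  set r : Ix m → ℝ := fun μ => (co m μ.1 : ℝ) with hrdef
  have hint := interior_nonempty hm
  by_contra hr
  have hr' : r ∉ interior (convexHull ℝ (SS m)) := fun h => hr (interior_subset h)
  obtain ⟨f, hf⟩ := geometric_hahn_banach_open_point (convex_convexHull ℝ _).interior
    isOpen_interior hr'
  have h1 : ∀ b : Fin 5 → ℚ, f (vv m (fun i => (b i : ℝ))) ≤ f r := by
    intro b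
    have hmem : vv m (fun i => (b i : ℝ)) ∈ closure (interior (convexHull ℝ (SS m))) := by
      rw [(convex_convexHull ℝ _).closure_interior_eq_closure_of_nonempty_interior hint]
      exact subset_closure (subset_convexHull ℝ _ ⟨b, rfl⟩)
    have h2 : closure (interior (convexHull ℝ (SS m))) ⊆ {v | f v ≤ f r} :=
      closure_minimal (fun a ha => (hf a ha).le) (isClosed_le f.continuous continuous_const)
    exact h2 hmem
  have h2 : ∀ b : Fin 5 → ℝ, f (vv m b) ≤ f r :=
    le_of_rat (P := fun b => f (vv m b)) (f.continuous.comp (continuous_vv m)) h1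
  have hs : ∀ (s : ℝ) (b : Fin 5 → ℝ), f (vv m (fun i => s * b i)) =
      s ^ (2 * m) * f (vv m b) := by
    intro s b
    rw [vv_smul, map_smul, smul_eq_mul]
  have h3 : ∀ b, f (vv m b) ≤ 0 := by
    intro b
    by_contra hb
    push Not at hb
    obtain ⟨n, hn⟩ := exists_nat_gt (f r / f (vv m b))
    have h4 := h2 fun i => ((n : ℝ) + 1) * b i
    rw [hs] at h4
    have h5 : ((n : ℝ) + 1) ≤ ((n : ℝ) + 1) ^ (2 * m) :=
      le_self_pow₀ (by have := Nat.cast_nonneg (α := ℝ) n; linarith) (by omega)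
    rw [div_lt_iff₀ hb] at hn
    nlinarith
  have h4 : 0 ≤ f r := by
    have h5 := h2 fun i => 0 * 0
    rw [hs 0 (fun _ => 0), zero_pow (by omega), zero_mul] at h5
    exact h5
  -- the integral
  have hcoord : Continuous fun b : EuclideanSpace ℝ (Fin 5) => (fun i => b i : Fin 5 → ℝ) := by
    fun_prop
  have hIm : ∀ μ : Fin 5 → ℕ, IntegrableOn (fun b : EuclideanSpace ℝ (Fin 5) => mon μ fun i => b i)
      (Metric.ball 0 1) := by
    intro μ
    have h5 : Continuous fun b : EuclideanSpace ℝ (Fin 5) => mon μ fun i => b i :=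
      (continuous_mon μ).comp hcoord
    exact (h5.continuousOn.integrableOn_compact (isCompact_closedBall 0 1)).mono_set
      Metric.ball_subset_closedBall
  have hmom : ∀ μ ∈ Ix m, ∫ b in Metric.ball (0 : EuclideanSpace ℝ (Fin 5)) 1,
      mon μ (fun i => b i) = c * co m μ := by
    intro μ hμ
    have h5 : ∀ x : Fin 5 → ℝ, ∑ μ ∈ Ix m, ((Nat.multinomial univ μ : ℝ) *
        ((∫ b in Metric.ball (0 : EuclideanSpace ℝ (Fin 5)) 1, mon μ (fun i => b i)) -
          c * co m μ)) * mon μ x = 0 := by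
      intro x
      have h6 := hball (WithLp.toLp 2 x)
      simp only at h6
      rw [sum_sq_pow_eq] at h6
      have h7 : ∀ b : EuclideanSpace ℝ (Fin 5), (∑ i, b i * x i) ^ (2 * m) =
          ∑ μ ∈ Ix m, (Nat.multinomial univ μ : ℝ) * ((mon μ fun i => b i) * mon μ x) :=
        fun b => sum_pow_eq m _ _
      simp only [h7] at h6
      rw [integral_finsetSum _ (fun μ _ => ((hIm μ).mul_const _).const_mul _)] at h6
      rw [Finset.mul_sum, ← sub_eq_zero, ← Finset.sum_sub_distrib] at h6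
      rw [← h6]
      refine sum_congr rfl fun μ _ => ?_
      rw [integral_const_mul, integral_mul_const]
      ring
    have h6 := eq_zero_of_sum h5 hμ
    have h7 : (Nat.multinomial univ μ : ℝ) ≠ 0 := by
      exact_mod_cast (Nat.multinomial_pos _ _).ne'
    exact sub_eq_zero.mp ((mul_eq_zero.mp h6).resolve_left h7)
  let F : (Ix m → ℝ) →ₗ[ℝ] ℝ := f.toLinearMap
  have hFv : ∀ v : Ix m → ℝ, f v = ∑ μ : Ix m, v μ * F (fun j => if μ = j then 1 else 0) := by
    intro v
    exact LinearMap.pi_apply_eq_sum_univ F v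
  have h5 : ∫ b in Metric.ball (0 : EuclideanSpace ℝ (Fin 5)) 1, f (vv m fun i => b i) =
      c * f r := by
    simp only [hFv]
    rw [integral_finsetSum _ (fun μ _ => (hIm μ.1).mul_const _), Finset.mul_sum]
    refine sum_congr rfl fun μ _ => ?_
    rw [integral_mul_const]
    have h6 := hmom μ.1 μ.2
    change (∫ b in Metric.ball (0 : EuclideanSpace ℝ (Fin 5)) 1, mon μ.1 (fun i => b i)) * _ = _
    rw [h6, mul_assoc]
  have h6 : ∫ b in Metric.ball (0 : EuclideanSpace ℝ (Fin 5)) 1, f (vv m fun i => b i) ≤ 0 :=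
    integral_nonpos fun b => h3 _
  have h7 : f r = 0 := by
    rw [h5] at h6
    nlinarith
  have h8 : ∀ b ∈ Metric.ball (0 : EuclideanSpace ℝ (Fin 5)) 1, f (vv m fun i => b i) = 0 := by
    have hcont : Continuous fun b : EuclideanSpace ℝ (Fin 5) => -f (vv m fun i => b i) :=
      ((f.continuous.comp (continuous_vv m)).comp hcoord).neg
    have hI : IntegrableOn (fun b : EuclideanSpace ℝ (Fin 5) => -f (vv m fun i => b i))
        (Metric.ball 0 1) :=
      (hcont.continuousOn.integrableOn_compact (isCompact_closedBall 0 1)).mono_set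
        Metric.ball_subset_closedBall
    have h9 : ∫ b in Metric.ball (0 : EuclideanSpace ℝ (Fin 5)) 1, -f (vv m fun i => b i) = 0 := by
      rw [integral_neg, h5, h7, mul_zero, neg_zero]
    rw [setIntegral_eq_zero_iff_of_nonneg_ae
      (Filter.Eventually.of_forall fun b => neg_nonneg.mpr (h3 _)) hI] at h9
    have h10 := Measure.eqOn_open_of_ae_eq h9 Metric.isOpen_ball hcont.continuousOn
      continuousOn_const
    intro b hb
    have h11 := h10 hb
    simpa using h11
  have h9 : (F : (Ix m → ℝ) →ₗ[ℝ] ℝ) = 0 := by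
    refine eq_zero_of_vv fun x => ?_
    change f (vv m x) = 0
    set X : EuclideanSpace ℝ (Fin 5) := WithLp.toLp 2 x with hX
    have hs0 : (0 : ℝ) < ‖X‖ + 1 := by positivity
    have h10 := h8 ((‖X‖ + 1)⁻¹ • X) (by
      rw [mem_ball_zero_iff, norm_smul, norm_inv, Real.norm_of_nonneg hs0.le,
        inv_mul_lt_iff₀ hs0]
      linarith)
    have h11 : (fun i => ((‖X‖ + 1)⁻¹ • X) i : Fin 5 → ℝ) = fun i => (‖X‖ + 1)⁻¹ * x i := by
      funext i
      simp [hX]
    rw [h11, hs] at h10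
    exact (mul_eq_zero.mp h10).resolve_left (pow_ne_zero _ (inv_ne_zero hs0.ne'))
  obtain ⟨a, ha⟩ := hint
  have h10 := hf a ha
  have h11 : f a = 0 := LinearMap.congr_fun h9 a
  rw [h11, h7] at h10
  exact lt_irrefl _ h10

end Hil

open Hil in
/-- **Hilbert's identity** -/
theorem hilbStmt_of (hB : BallStmt) : HilbStmt := by
  classical
  intro m
  rcases Nat.eq_zero_or_pos m with rfl | hm
  · exact ⟨1, Unit, inferInstance, fun _ _ => 0, one_pos, fun x => by simp⟩
  obtain ⟨ι, hι, z, w, hz, hindep, hw, hw1, hwr⟩ :=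
    eq_pos_convex_span_of_mem_convexHull (mem_convexHull hB hm)
  have h1 : ∀ i, ∃ b : Fin 5 → ℚ, vv m (fun j => (b j : ℝ)) = z i := fun i =>
    hz (Set.mem_range_self i)
  choose b hb using h1
  have hzq : ∀ i, z i = fun μ : Ix m => ((mon μ.1 (b i) : ℚ) : ℝ) := by
    intro i
    rw [← hb i]
    funext μ
    rw [vv, ← Rat.coe_castHom, map_mon]
  obtain ⟨w', hw'⟩ := exists_rat (I := Ix m) (q := fun i μ => mon μ.1 (b i)) (w := w)
    (r := fun μ => co m μ.1) (by
      have h2 : z = fun i => fun μ : Ix m => ((mon μ.1 (b i) : ℚ) : ℝ) := funext hzq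
      rw [← h2]
      exact hindep) hw1 (by
      intro μ
      have h2 := congrFun hwr μ
      rw [Finset.sum_apply] at h2
      rw [← h2]
      refine sum_congr rfl fun i _ => ?_
      rw [Pi.smul_apply, smul_eq_mul, hzq i])
  have hw'0 : ∀ i, 0 ≤ w' i := by
    intro i
    have h2 := hw i
    rw [hw' i] at h2
    exact_mod_cast h2.le
  -- the identity over `ℚ`
  have hco : ∀ μ ∈ Ix m, ∑ i, w' i * mon μ (b i) = co m μ := by
    intro μ hμ
    have h2 := congrFun hwr ⟨μ, hμ⟩
    rw [Finset.sum_apply] at h2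
    have h3 : ∑ i, (w' i : ℝ) * ((mon μ (b i) : ℚ) : ℝ) = (co m μ : ℝ) := by
      rw [← h2]
      refine sum_congr rfl fun i _ => ?_
      rw [Pi.smul_apply, smul_eq_mul, hzq i, hw' i]
    exact_mod_cast h3
  have hid : ∀ x : Fin 5 → ℚ, (∑ i, x i ^ 2) ^ m =
      ∑ j, w' j * (∑ i, b j i * x i) ^ (2 * m) := by
    intro x
    simp only [sum_pow_eq, sum_sq_pow_eq]
    simp only [Finset.mul_sum]
    rw [Finset.sum_comm]
    refine sum_congr rfl fun μ hμ => ?_
    rw [Rat.cast_id, ← hco μ hμ, Finset.sum_mul, Finset.mul_sum]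
    exact sum_congr rfl fun i _ => by ring
  -- denominators
  let d : ℕ := ∏ j, ∏ i, (b j i).den
  have hd : ∀ j i, ∃ B : ℤ, (d : ℚ) * b j i = B := by
    intro j i
    have h2 : (b j i).den ∣ d :=
      (Finset.dvd_prod_of_mem (fun i => (b j i).den) (mem_univ i)).trans
        (Finset.dvd_prod_of_mem (fun j => ∏ i, (b j i).den) (mem_univ j))
    obtain ⟨e, he⟩ := h2
    refine ⟨e * (b j i).num, ?_⟩
    rw [he]
    push_cast
    have h3 := Rat.mul_den_eq_num (b j i)
    rw [← h3]
    ring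
  choose B hB' using hd
  have hd0 : 0 < d := Finset.prod_pos fun j _ => Finset.prod_pos fun i _ => (b j i).den_pos
  let e : ℕ := ∏ j, (w' j).den
  have he0 : 0 < e := Finset.prod_pos fun j _ => (w' j).den_pos
  have he : ∀ j, ∃ W : ℕ, (e : ℚ) * w' j = W := by
    intro j
    obtain ⟨t, ht⟩ := Finset.dvd_prod_of_mem (fun j => (w' j).den) (mem_univ j)
    refine ⟨t * (w' j).num.toNat, ?_⟩
    have h2 : ((w' j).num.toNat : ℤ) = (w' j).num := Int.toNat_of_nonneg (Rat.num_nonneg.mpr (hw'0 j))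
    have h3 : (((w' j).num.toNat : ℕ) : ℚ) = ((w' j).num : ℚ) := by exact_mod_cast h2
    have h4 : (e : ℚ) = ((w' j).den : ℚ) * t := by exact_mod_cast ht
    rw [h4]
    push_cast
    rw [h3, ← Rat.mul_den_eq_num (w' j)]
    ring
  choose W hW using he
  refine ⟨e * d ^ (2 * m), (j : ι) × Fin (W j), inferInstance, fun j => B j.1, by positivity, ?_⟩
  intro x
  have h2 := hid fun i => (x i : ℚ)
  have h3 : ((e * d ^ (2 * m) : ℕ) : ℚ) * (∑ i, (x i : ℚ) ^ 2) ^ m =
      ∑ j : (j : ι) × Fin (W j), (∑ i, (B j.1 i : ℚ) * x i) ^ (2 * m) := by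
    rw [h2, Fintype.sum_sigma, Finset.mul_sum]
    refine sum_congr rfl fun j _ => ?_
    change _ = ∑ _y : Fin (W j), (∑ i, (B j i : ℚ) * x i) ^ (2 * m)
    rw [Finset.sum_const, Finset.card_univ, Fintype.card_fin, nsmul_eq_mul, ← hW j]
    have h4 : ∑ i, (B j i : ℚ) * x i = d * ∑ i, b j i * x i := by
      rw [Finset.mul_sum]
      refine sum_congr rfl fun i _ => ?_
      rw [← hB' j i]
      ring
    rw [h4, mul_pow]
    push_cast
    ring
  exact_mod_cast h3

end Fermat.Agent.Cor.Hilb
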