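import Fermat.Agent.Corollaries.Hilb.Mult

/-!
# The Hilbert - Waring theorem: integral coefficients
-/

set_option autoImplicit false

namespace Fermat.Agent.Cor.Hilb

open Finset Fermat.Agent.Cor.Waring

section

variable {k L Q N : ℕ} {B : ℕ → ℕ → ℕ}

/-- the coefficients can be made divisible by `A` -/
lemma fill (hk : 1 ≤ k) (hI : ∀ ℓ ≤ L, ∀ x T : ℕ, x ^ 2 ≤ T → SP (2 * k) N
      (Q * (x ^ (2 * ℓ) * T ^ (k - ℓ) + ∑ i ∈ range ℓ, B i ℓ * x ^ (2 * i) * T ^ (k - i))))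
    {A : ℕ} (hA : 0 < A) : ∀ n : ℕ, n ≤ L + 1 → ∀ a : ℕ → ℕ, ∃ (a' : ℕ → ℕ) (M : ℕ), ∀ x T : ℕ,
      x ^ 2 ≤ T → ∃ R : ℕ, SP (2 * k) M R ∧
        Q * ∑ i ∈ range n, a i * x ^ (2 * i) * T ^ (k - i) + R =
          Q * A * ∑ i ∈ range n, a' i * x ^ (2 * i) * T ^ (k - i) := by
  have he : 2 * k ≠ 0 := by omega
  intro n
  induction n with
  | zero =>
    intro _ a
    exact ⟨fun _ => 0, 0, fun x T _ => ⟨0, SP.zero he 0, by simp⟩⟩
  | succ n ih =>
    intro hn a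
    set c : ℕ := a n * (A - 1) with hc
    have hcA : a n + c = A * a n := by
      obtain ⟨A', rfl⟩ : ∃ A', A = A' + 1 := ⟨A - 1, by omega⟩
      rw [hc, Nat.add_sub_cancel]
      ring
    obtain ⟨a', M, hM⟩ := ih (by omega) fun i => a i + c * B i n
    refine ⟨Function.update a' n (a n), M + c * N, fun x T hxT => ?_⟩
    obtain ⟨R, hR1, hR2⟩ := hM x T hxT
    refine ⟨R + c * (Q * (x ^ (2 * n) * T ^ (k - n) +
      ∑ i ∈ range n, B i n * x ^ (2 * i) * T ^ (k - i))),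
      hR1.add (SP_nsmul he (hI n (by omega) x T hxT) c), ?_⟩
    have h1 : ∑ i ∈ range n, Function.update a' n (a n) i * x ^ (2 * i) * T ^ (k - i) =
        ∑ i ∈ range n, a' i * x ^ (2 * i) * T ^ (k - i) := by
      refine Finset.sum_congr rfl fun i hi => ?_
      rw [Function.update_of_ne (Finset.mem_range.mp hi).ne]
    have h2 : ∑ i ∈ range n, (a i + c * B i n) * x ^ (2 * i) * T ^ (k - i) =
        ∑ i ∈ range n, a i * x ^ (2 * i) * T ^ (k - i) +
          c * ∑ i ∈ range n, B i n * x ^ (2 * i) * T ^ (k - i) := by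
      rw [Finset.mul_sum, ← Finset.sum_add_distrib]
      exact Finset.sum_congr rfl fun i _ => by ring
    rw [h2] at hR2
    rw [Finset.sum_range_succ, Finset.sum_range_succ, h1, Function.update_self]
    have h3 : Q * A * (a n * x ^ (2 * n) * T ^ (k - n)) =
        Q * ((a n + c) * x ^ (2 * n) * T ^ (k - n)) := by
      rw [hcA]
      ring
    rw [mul_add (Q * A), ← hR2, h3]
    ring

/-- induction on `L` -/
theorem int_step (h : DerStmt) (hk : 1 ≤ k) : ∀ L : ℕ, L ≤ k → ∃ (Q N : ℕ) (B : ℕ → ℕ → ℕ), 0 < Q ∧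
    ∀ ℓ ≤ L, ∀ x T : ℕ, x ^ 2 ≤ T → SP (2 * k) N (Q * (x ^ (2 * ℓ) * T ^ (k - ℓ) +
      ∑ i ∈ range ℓ, B i ℓ * x ^ (2 * i) * T ^ (k - i))) := by
  have he : 2 * k ≠ 0 := by omega
  intro L
  induction L with
  | zero =>
    intro _
    obtain ⟨A, N, hA, hN⟩ := h k 0 hk (Nat.zero_le k)
    refine ⟨A 0, N, fun _ _ => 0, hA, fun ℓ hℓ x T hxT => ?_⟩
    obtain rfl : ℓ = 0 := by omega
    have h1 := hN x T hxT
    simpa using h1
  | succ L ih =>
    intro hL
    obtain ⟨Q, N, B, hQ, hI⟩ := ih (by omega)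
    obtain ⟨A, N', hA, hN'⟩ := h k (L + 1) hk hL
    obtain ⟨a', M, hM⟩ := fill hk hI hA (L + 1) le_rfl A
    refine ⟨Q * A (L + 1), A (L + 1) * N + (Q * N' + M),
      fun i j => if j = L + 1 then a' i else B i j, Nat.mul_pos hQ hA, fun ℓ hℓ x T hxT => ?_⟩
    rcases Nat.lt_or_ge L ℓ with h1 | h1
    · obtain rfl : ℓ = L + 1 := by omega
      obtain ⟨R, hR1, hR2⟩ := hM x T hxT
      have h2 : Q * A (L + 1) * (x ^ (2 * (L + 1)) * T ^ (k - (L + 1)) +
          ∑ i ∈ range (L + 1), (if L + 1 = L + 1 then a' i else B i (L + 1)) * x ^ (2 * i) *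
            T ^ (k - i)) =
          Q * (∑ i ∈ range (L + 1 + 1), A i * x ^ (2 * i) * T ^ (k - i)) + R := by
        simp only [if_true]
        rw [Finset.sum_range_succ _ (L + 1), mul_add Q, add_right_comm, hR2]
        ring
      rw [h2]
      exact ((SP_nsmul he (hN' x T hxT) Q).add hR1).mono he (Nat.le_add_left _ _)
    · have h2 : Q * A (L + 1) * (x ^ (2 * ℓ) * T ^ (k - ℓ) +
          ∑ i ∈ range ℓ, (if ℓ = L + 1 then a' i else B i ℓ) * x ^ (2 * i) * T ^ (k - i)) =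
          A (L + 1) * (Q * (x ^ (2 * ℓ) * T ^ (k - ℓ) +
            ∑ i ∈ range ℓ, B i ℓ * x ^ (2 * i) * T ^ (k - i))) := by
        simp only [if_neg (show ¬ ℓ = L + 1 by omega)]
        ring
      rw [h2]
      exact (SP_nsmul he (hI ℓ h1 x T hxT) _).mono he (Nat.le_add_right _ _)

end

/-- **(C)** -/
theorem intStmt_of (h : DerStmt) : IntStmt := fun _ hk => int_step h hk _ le_rfl

end Fermat.Agent.Cor.Hilb
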