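import Fermat.Agent.Corollaries.Hilb.Defs
import Mathlib.NumberTheory.SumFourSquares

/-!
# The Hilbert - Waring theorem: the last step
-/

set_option autoImplicit false

namespace Fermat.Agent.Cor.Hilb

open Finset Fermat.Agent.Cor.Waring

lemma wa_two : Wa 2 := by
  refine ⟨4, fun n => ?_⟩
  obtain ⟨a, b, c, d, h⟩ := Nat.sum_four_squares n
  refine ⟨![a, b, c, d], ?_⟩
  rw [← h]
  simp [Fin.sum_univ_four]

/-- every large `n` is `T u + (T + 1) v` with both summands in the range of `MultStmt` -/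
lemma exists_split {k K : ℕ} (hk : 2 ≤ k) {n : ℕ} (hn : K + (K + 1) * 2 ^ k ≤ n) :
    ∃ T a b : ℕ, 1 ≤ T ∧ n = a + b ∧ T ∣ a ∧ (T + 1) ∣ b ∧
      K * T ^ k ≤ a ∧ a ≤ ((K + (K + 1) * 2 ^ k) * 2 ^ k) * T ^ k ∧
      K * (T + 1) ^ k ≤ b ∧ b ≤ ((K + (K + 1) * 2 ^ k) * 2 ^ k) * (T + 1) ^ k := by
  classical
  set L : ℕ := K + (K + 1) * 2 ^ k with hL
  have hLpos : 0 < L := by positivity
  have hex : ∃ T : ℕ, n < L * (T + 1) ^ k := by
    refine ⟨n, ?_⟩
    calc n < n + 1 := Nat.lt_succ_self n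
      _ ≤ (n + 1) ^ k := Nat.le_self_pow (by omega) _
      _ ≤ L * (n + 1) ^ k := Nat.le_mul_of_pos_left _ hLpos
  set T : ℕ := Nat.find hex with hT
  have hT1 : n < L * (T + 1) ^ k := Nat.find_spec hex
  have hT0 : 1 ≤ T := by
    by_contra h0
    have h1 : T = 0 := by omega
    rw [h1, zero_add, one_pow, mul_one] at hT1
    omega
  have hT2 : L * T ^ k ≤ n := by
    have h1 := Nat.find_min hex (m := T - 1) (by omega)
    rw [Nat.sub_add_cancel hT0] at h1
    omega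
  -- `v ≡ n mod T`
  set v₀ : ℕ := K * (T + 1) ^ (k - 1) with hv₀
  obtain ⟨v, hv1, hv2, hv3⟩ : ∃ v : ℕ, v₀ ≤ v ∧ v < v₀ + T ∧ (v : ℤ) ≡ n [ZMOD T] := by
    refine ⟨v₀ + (((n : ℤ) - v₀) % T).toNat, Nat.le_add_right _ _, ?_, ?_⟩
    · have hT0' : (0 : ℤ) < T := by exact_mod_cast hT0
      have h1 : ((n : ℤ) - v₀) % T < T := Int.emod_lt_of_pos _ hT0'
      omega
    · have hT0' : (0 : ℤ) < T := by exact_mod_cast hT0
      have h1 : 0 ≤ ((n : ℤ) - v₀) % T := Int.emod_nonneg _ hT0'.ne'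
      push_cast
      rw [Int.toNat_of_nonneg h1]
      have h2 : ((n : ℤ) - v₀) % T ≡ (n : ℤ) - v₀ [ZMOD T] := Int.mod_modEq _ _
      have h3 := h2.add_left (v₀ : ℤ)
      rwa [add_sub_cancel] at h3
  have hpowk : (T + 1) ^ k = (T + 1) * (T + 1) ^ (k - 1) := by
    rw [← pow_succ', Nat.sub_add_cancel (by omega)]
  have hb1 : K * (T + 1) ^ k ≤ (T + 1) * v := by
    calc K * (T + 1) ^ k = (T + 1) * v₀ := by
          rw [hpowk, hv₀]
          ring
      _ ≤ (T + 1) * v := Nat.mul_le_mul_left _ hv1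
  have hb2 : (T + 1) * v ≤ (K + 1) * (T + 1) ^ k := by
    calc (T + 1) * v ≤ (T + 1) * (v₀ + (T + 1)) := Nat.mul_le_mul_left _ (by omega)
      _ = K * (T + 1) ^ k + (T + 1) ^ 2 := by
          rw [hpowk, hv₀]
          ring
      _ ≤ K * (T + 1) ^ k + (T + 1) ^ k :=
          Nat.add_le_add_left (Nat.pow_le_pow_right (by omega) hk) _
      _ = (K + 1) * (T + 1) ^ k := by ring
  have hdouble : (T + 1) ^ k ≤ 2 ^ k * T ^ k := by
    rw [← mul_pow]
    exact Nat.pow_le_pow_left (by omega) k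
  have hsum : K * T ^ k + (T + 1) * v ≤ n := by
    calc K * T ^ k + (T + 1) * v ≤ K * T ^ k + (K + 1) * (2 ^ k * T ^ k) :=
          Nat.add_le_add_left (hb2.trans (Nat.mul_le_mul_left _ hdouble)) _
      _ = L * T ^ k := by
          rw [hL]
          ring
      _ ≤ n := hT2
  refine ⟨T, n - (T + 1) * v, (T + 1) * v, hT0, ?_, ?_, Dvd.intro _ rfl, ?_, ?_, hb1, ?_⟩
  · omega
  · have h1 : (T : ℤ) ∣ ((n - (T + 1) * v : ℕ) : ℤ) := by
      rw [Nat.cast_sub (by omega)]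
      obtain ⟨w, hw⟩ := (Int.modEq_iff_dvd.mp hv3)
      refine ⟨w - v, ?_⟩
      push_cast
      linear_combination hw
    exact_mod_cast h1
  · omega
  · calc n - (T + 1) * v ≤ n := Nat.sub_le _ _
      _ ≤ L * (T + 1) ^ k := hT1.le
      _ ≤ L * (2 ^ k * T ^ k) := Nat.mul_le_mul_left _ hdouble
      _ = L * 2 ^ k * T ^ k := by ring
  · refine hb2.trans (Nat.mul_le_mul_right _ ?_)
    have h1 : 1 ≤ 2 ^ k := Nat.one_le_two_pow
    calc K + 1 ≤ (K + 1) * 2 ^ k := Nat.le_mul_of_pos_right _ (by positivity)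
      _ ≤ L := Nat.le_add_left _ _
      _ ≤ L * 2 ^ k := Nat.le_mul_of_pos_right _ (by positivity)

/-- even exponents -/
theorem wa_two_mul_of (hM : MultStmt) : ∀ k : ℕ, 1 ≤ k → Wa (2 * k) := by
  intro k
  induction k using Nat.strong_induction_on with
  | _ k ih =>
    intro hk1
    rcases Nat.eq_or_lt_of_le hk1 with h1 | h1
    · rw [← h1, mul_one]
      exact wa_two
    · have hk : 2 ≤ k := h1
      have he : 2 * k ≠ 0 := by omega
      obtain ⟨Q, K, hQ, hK⟩ := hM k hk fun ℓ hℓ1 hℓk => ih ℓ hℓk hℓ1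
      obtain ⟨N, hN⟩ := hK ((K + (K + 1) * 2 ^ k) * 2 ^ k)
      set L : ℕ := K + (K + 1) * 2 ^ k with hL
      refine ⟨(N + N + Q) + Q * L, fun n => ?_⟩
      have hmod := Nat.mod_lt n hQ
      have hdiv := Nat.div_add_mod n Q
      rcases Nat.lt_or_ge (n / Q) L with h2 | h2
      · have h3 : n ≤ (N + N + Q) + Q * L := by
          have h4 : Q * (n / Q) ≤ Q * L := Nat.mul_le_mul_left _ h2.le
          omega
        exact (SP.ones (2 * k) n).mono he h3
      · obtain ⟨T, a, b, hT, hab, hTa, hTb, ha1, ha2, hb1, hb2⟩ := exists_split hk h2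
        have h3 : SP (2 * k) (N + N) (Q * (n / Q)) := by
          rw [hab, mul_add]
          exact (hN T a hT hTa ha1 ha2).add (hN (T + 1) b (by omega) hTb hb1 hb2)
        have h4 : SP (2 * k) (N + N + n % Q) n := by
          have h5 := h3.add (SP.ones (2 * k) (n % Q))
          rwa [hdiv] at h5
        exact h4.mono he (by omega)

/-- **(E)**, without Hilbert's identity -/
theorem waring_of' (hM : MultStmt) : WaringStmt := by
  intro k hk
  obtain ⟨g, hg⟩ := wa_two_mul_of hM k hk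
  refine ⟨g, fun n => ?_⟩
  obtain ⟨f, hf⟩ := hg n
  refine ⟨fun i => f i ^ 2, ?_⟩
  rw [← hf]
  exact Finset.sum_congr rfl fun i _ => (pow_mul (f i) 2 k).symm

/-- **(E)** -/
theorem waring_of (_hH : HilbStmt) (hM : MultStmt) : WaringStmt := waring_of' hM

end Fermat.Agent.Cor.Hilb
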