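import Fermat.Agent.Corollaries.Hilb.Ball
import Fermat.Agent.Corollaries.Hilb.Hilbert
import Fermat.Agent.Corollaries.Hilb.Der
import Fermat.Agent.Corollaries.Hilb.Int
import Fermat.Agent.Corollaries.Hilb.Main

/-!
# The Hilbert - Waring theorem

* `hilbert_identity`: `D (x₁² + ... + x₅²)^m = ∑ (b_j · x)^{2m}` with integral vectors `b_j`;
* `hilbert_waring`: for every `k ≥ 1` there is `g` such that every natural number is a sum of `g`
  `k`-th powers of natural numbers (Hilbert 1909);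
* `hilbert_waring_rat`: the same for the rational numbers `≥ 0`.
-/

set_option autoImplicit false

namespace Fermat.Agent.Cor.Hilb

open Finset

/-- **Hilbert's identity** in five variables. -/
theorem hilbert_identity (m : ℕ) : ∃ (D : ℕ) (ι : Type) (_ : Fintype ι) (b : ι → Fin 5 → ℤ),
    0 < D ∧ ∀ x : Fin 5 → ℤ,
      (D : ℤ) * (∑ i, x i ^ 2) ^ m = ∑ j, (∑ i, b j i * x i) ^ (2 * m) :=
  hilbStmt_of ballStmt m

/-- **The Hilbert - Waring theorem** (Waring 1770, Hilbert 1909): for every `k ≥ 1` there is a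
number `g` such that every natural number is a sum of `g` `k`-th powers of natural numbers. -/
theorem hilbert_waring (k : ℕ) (hk : 1 ≤ k) :
    ∃ g : ℕ, ∀ n : ℕ, ∃ f : Fin g → ℕ, ∑ i, f i ^ k = n :=
  waring_of (hilbStmt_of ballStmt) (multStmt_of (intStmt_of (derStmt_of (hilbStmt_of ballStmt))))
    k hk

/-- Every rational number `≥ 0` is a sum of `g` `k`-th powers of rational numbers `≥ 0`. -/
theorem hilbert_waring_rat (k : ℕ) (hk : 1 ≤ k) :
    ∃ g : ℕ, ∀ x : ℚ, 0 ≤ x → ∃ f : Fin g → ℚ, (∀ i, 0 ≤ f i) ∧ ∑ i, f i ^ k = x := by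
  obtain ⟨g, hg⟩ := hilbert_waring k hk
  refine ⟨g, fun x hx => ?_⟩
  obtain ⟨f, hf⟩ := hg (x.num.toNat * x.den ^ (k - 1))
  have hd : (x.den : ℚ) ≠ 0 := by exact_mod_cast x.den_nz
  refine ⟨fun i => f i / x.den, fun i => by positivity, ?_⟩
  have h1 : ((x.num.toNat : ℕ) : ℚ) = x.num := by
    exact_mod_cast Int.toNat_of_nonneg (Rat.num_nonneg.mpr hx)
  have h2 : ∑ i, (f i : ℚ) ^ k = x.num * (x.den : ℚ) ^ (k - 1) := by
    rw [← h1]
    exact_mod_cast hf
  simp only [div_pow]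
  rw [← Finset.sum_div, h2, div_eq_iff (pow_ne_zero _ hd)]
  obtain ⟨l, rfl⟩ : ∃ l, k = l + 1 := ⟨k - 1, by omega⟩
  rw [Nat.add_sub_cancel, pow_succ, ← mul_assoc, mul_right_comm, Rat.mul_den_eq_num]

end Fermat.Agent.Cor.Hilb
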