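import Fermat.Agent.Corollaries.Hilb.Defs

/-!
# The Hilbert - Waring theorem: the digits in base `T`
-/

set_option autoImplicit false

namespace Fermat.Agent.Cor.Hilb

open Finset Fermat.Agent.Cor.Waring

lemma SP_sum_fin {e N : ℕ} (he : e ≠ 0) : ∀ {r : ℕ} (f : Fin r → ℕ), (∀ j, SP e N (f j)) →
    SP e (r * N) (∑ j, f j)
  | 0, f, _ => by
    rw [Nat.zero_mul]
    simpa using SP.zero he 0
  | r + 1, f, h => by
    rw [Fin.sum_univ_succ, Nat.succ_mul, add_comm (r * N)]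
    exact (h 0).add (SP_sum_fin he _ fun j => h _)

lemma SP_nsmul {e N n : ℕ} (he : e ≠ 0) (h : SP e N n) (c : ℕ) : SP e (c * N) (c * n) := by
  have h1 := SP_sum_fin he (fun _ : Fin c => n) fun _ => h
  rwa [Finset.sum_const, Finset.card_univ, Fintype.card_fin, smul_eq_mul] at h1

section

variable {k : ℕ} (B : ℕ → ℕ → ℕ)

/-- the lower terms are divisible by `T ^ (k - ℓ + 1)` -/
lemma dvd_lower {ℓ x T : ℕ} (hℓ : ℓ ≤ k) :
    T ^ (k - ℓ + 1) ∣ ∑ i ∈ range ℓ, B i ℓ * x ^ (2 * i) * T ^ (k - i) := by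
  refine Finset.dvd_sum fun i hi => ?_
  have h1 := Finset.mem_range.mp hi
  exact Dvd.dvd.mul_left (pow_dvd_pow T (by omega)) _

lemma pow_mul_le {i x T : ℕ} (hi : i ≤ k) (hx : x ^ 2 ≤ T) : x ^ (2 * i) * T ^ (k - i) ≤ T ^ k := by
  calc x ^ (2 * i) * T ^ (k - i) = (x ^ 2) ^ i * T ^ (k - i) := by rw [pow_mul]
    _ ≤ T ^ i * T ^ (k - i) := Nat.mul_le_mul_right _ (Nat.pow_le_pow_left hx i)
    _ = T ^ k := by rw [← pow_add, Nat.add_sub_cancel' hi]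

lemma term_le {ℓ x T : ℕ} (hℓ : ℓ ≤ k) (hx : x ^ 2 ≤ T) :
    x ^ (2 * ℓ) * T ^ (k - ℓ) + ∑ i ∈ range ℓ, B i ℓ * x ^ (2 * i) * T ^ (k - i) ≤
      (1 + ∑ i ∈ range ℓ, B i ℓ) * T ^ k := by
  rw [add_mul, one_mul, Finset.sum_mul]
  refine Nat.add_le_add (pow_mul_le hℓ hx) (Finset.sum_le_sum fun i hi => ?_)
  have h1 := Finset.mem_range.mp hi
  rw [mul_assoc]
  exact Nat.mul_le_mul_left _ (pow_mul_le (by omega) hx)

variable {B}

/-- the choice of the digits -/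
theorem digits {Q N : ℕ} (hk : 2 ≤ k)
    (hI : ∀ ℓ ≤ k, ∀ x T : ℕ, x ^ 2 ≤ T → SP (2 * k) N (Q * (x ^ (2 * ℓ) * T ^ (k - ℓ) +
      ∑ i ∈ range ℓ, B i ℓ * x ^ (2 * i) * T ^ (k - i))))
    (hW : ∀ ℓ : ℕ, 1 ≤ ℓ → ℓ < k → Wa (2 * ℓ)) : ∀ s : ℕ, s < k → ∃ M K : ℕ, ∀ T n : ℕ,
      1 ≤ T → T ∣ n → ∃ V : ℕ, SP (2 * k) M (Q * V) ∧ V ≤ K * T ^ k ∧
        (T : ℤ) ^ (s + 1) ∣ (n : ℤ) - V := by
  have he : 2 * k ≠ 0 := by omega
  intro s
  induction s with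
  | zero =>
    intro _
    refine ⟨0, 0, fun T n _ hTn => ⟨0, ?_, Nat.zero_le _, ?_⟩⟩
    · rw [mul_zero]
      exact SP.zero he 0
    · rw [zero_add, pow_one, Nat.cast_zero, sub_zero]
      exact_mod_cast hTn
  | succ s ih =>
    intro hs
    obtain ⟨M, K, hMK⟩ := ih (by omega)
    set ℓ : ℕ := k - (s + 1) with hℓ
    have hℓk : k - ℓ = s + 1 := by omega
    obtain ⟨g, hg⟩ := hW ℓ (by omega) (by omega)
    refine ⟨M + g * N, K + g * (1 + ∑ i ∈ range ℓ, B i ℓ), fun T n hT hTn => ?_⟩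
    obtain ⟨V, hV1, hV2, w, hw⟩ := hMK T n hT hTn
    have hT0 : (0 : ℤ) < T := by exact_mod_cast hT
    have hw0 : 0 ≤ w % T := Int.emod_nonneg _ hT0.ne'
    have hwT : w % T < T := Int.emod_lt_of_pos _ hT0
    obtain ⟨x, hx⟩ := hg (w % T).toNat
    have hC : (((w % T).toNat : ℕ) : ℤ) = w % T := Int.toNat_of_nonneg hw0
    have hxT : ∀ j, x j ^ 2 ≤ T := by
      intro j
      have h1 : x j ^ (2 * ℓ) ≤ (w % T).toNat := by
        rw [← hx]
        exact Finset.single_le_sum (f := fun j => x j ^ (2 * ℓ)) (fun _ _ => Nat.zero_le _)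
          (Finset.mem_univ j)
      have h2 : x j ^ 2 ≤ x j ^ (2 * ℓ) := by
        rw [pow_mul]
        exact Nat.le_self_pow (by omega) _
      omega
    set t : Fin g → ℕ := fun j => x j ^ (2 * ℓ) * T ^ (k - ℓ) +
      ∑ i ∈ range ℓ, B i ℓ * x j ^ (2 * i) * T ^ (k - i) with ht
    refine ⟨V + ∑ j, t j, ?_, ?_, ?_⟩
    · rw [mul_add, Finset.mul_sum]
      exact hV1.add (SP_sum_fin he _ fun j => hI ℓ (by omega) (x j) T (hxT j))
    · rw [add_mul]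
      refine Nat.add_le_add hV2 ?_
      calc ∑ j, t j ≤ ∑ _j : Fin g, (1 + ∑ i ∈ range ℓ, B i ℓ) * T ^ k :=
            Finset.sum_le_sum fun j _ => term_le B (by omega) (hxT j)
        _ = g * (1 + ∑ i ∈ range ℓ, B i ℓ) * T ^ k := by
          rw [Finset.sum_const, Finset.card_univ, Fintype.card_fin, smul_eq_mul, mul_assoc]
    · have h1 : ∑ j, t j = (w % T).toNat * T ^ (s + 1) +
          ∑ j, ∑ i ∈ range ℓ, B i ℓ * x j ^ (2 * i) * T ^ (k - i) := by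
        rw [ht, Finset.sum_add_distrib, ← Finset.sum_mul, hx, hℓk]
      have h2 : T ^ (s + 1 + 1) ∣ ∑ j, ∑ i ∈ range ℓ, B i ℓ * x j ^ (2 * i) * T ^ (k - i) := by
        refine Finset.dvd_sum fun j _ => ?_
        have h3 := dvd_lower (k := k) B (ℓ := ℓ) (x := x j) (T := T) (by omega)
        rwa [hℓk] at h3
      obtain ⟨R, hR⟩ := h2
      rw [hR] at h1
      refine ⟨w / T - R, ?_⟩
      rw [h1]
      push_cast
      rw [hC]
      have h3 := Int.emod_add_mul_ediv w T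
      have h4 : (n : ℤ) = V + (T : ℤ) ^ (s + 1) * w := by linear_combination hw
      rw [h4]
      linear_combination (-(T : ℤ) ^ (s + 1)) * h3

end

/-- **(D)** -/
theorem multStmt_of (h : IntStmt) : MultStmt := by
  intro k hk hW
  have he : 2 * k ≠ 0 := by omega
  obtain ⟨Q, N, B, hQ, hI⟩ := h k (by omega)
  obtain ⟨M, K, hMK⟩ := digits hk hI hW (k - 1) (by omega)
  refine ⟨Q, K, hQ, fun K' => ⟨M + K' * N, fun T n hT hTn hn1 hn2 => ?_⟩⟩
  obtain ⟨V, hV1, hV2, hV3⟩ := hMK T n hT hTn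
  rw [Nat.sub_add_cancel (by omega)] at hV3
  have hVn : V ≤ n := hV2.trans hn1
  have h1 : T ^ k ∣ n - V := by
    have h2 : ((T ^ k : ℕ) : ℤ) ∣ ((n - V : ℕ) : ℤ) := by
      rw [Nat.cast_sub hVn]
      push_cast
      exact hV3
    exact_mod_cast h2
  obtain ⟨c, hc⟩ := h1
  have hTk : 0 < T ^ k := Nat.pow_pos hT
  have hcK : c ≤ K' := by
    have h2 : T ^ k * c ≤ T ^ k * K' := by
      rw [← hc, mul_comm (T ^ k) K']
      exact (Nat.sub_le _ _).trans hn2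
    exact Nat.le_of_mul_le_mul_left h2 hTk
  have h0 : SP (2 * k) N (Q * T ^ k) := by
    have h2 := hI 0 (Nat.zero_le _) 0 T (by simp)
    simpa using h2
  have h3 : n = V + T ^ k * c := by omega
  have h4 : Q * n = Q * V + c * (Q * T ^ k) := by
    rw [h3]
    ring
  rw [h4]
  exact hV1.add ((SP_nsmul he h0 c).mono he (Nat.mul_le_mul_right _ hcK))

end Fermat.Agent.Cor.Hilb
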